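/-
IHARA track / [O] (helper9): a concrete coefficient ring.

`iho_exists` : for an odd prime `p` and any `n > 0` there is a complete discrete valuation ring `𝒪`
of characteristic zero with finite residue field, `p ∈ 𝔪`, containing a primitive `n`-th root of
unity, such that the image of every integer is a square in the residue field (so every monic
quadratic polynomial over `𝔽_p` splits in the residue field).  (`𝒪` = completion of the ring of
integers of `ℚ(ζ_n, √e)` at a prime over `p`, `e` a quadratic non-residue; helper8's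
`ter_exists_dvr_of_dedekind`.)
-/
import Fermat.Agent.Lib.T1.Asm.Res.ExistsDVR
import Fermat.Prelude.Def_FLTPrelim_ModularRep

set_option autoImplicit false
set_option linter.style.haveILetI false
set_option linter.unusedSectionVars false

open IsLocalRing NumberField

namespace Fermat.Agent.Ihara

/-- every element of `𝔽_p` is a square or a non-residue times a square -/
theorem iho_isSquare_of_nonresidue {p : ℕ} [Fact p.Prime] (hp2 : p ≠ 2) {k : Type*} [Field k]
    (φ : ZMod p →+* k) (ε : ZMod p) (hε : ¬ IsSquare ε) (hεk : IsSquare (φ ε)) (a : ZMod p) :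
    IsSquare (φ a) := by
  have hchar : ringChar (ZMod p) ≠ 2 := by rwa [ZMod.ringChar_zmod_n]
  by_cases ha : IsSquare a
  · exact ha.map φ
  · have hε0 : ε ≠ 0 := fun h => hε (h ▸ IsSquare.zero)
    have ha0 : a ≠ 0 := fun h => ha (h ▸ IsSquare.zero)
    have h1 : quadraticChar (ZMod p) a = -1 := (quadraticChar_neg_one_iff_not_isSquare).2 ha
    have h2 : quadraticChar (ZMod p) ε = -1 := (quadraticChar_neg_one_iff_not_isSquare).2 hε
    have h3 : quadraticChar (ZMod p) (a * ε) = 1 := by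
      rw [map_mul, h1, h2]
      norm_num
    have h4 : IsSquare (a * ε) := (quadraticChar_one_iff_isSquare (mul_ne_zero ha0 hε0)).1 h3
    have h5 : a = (a * ε) * ε * (ε⁻¹ * ε⁻¹) := by
      field_simp
    rw [h5, map_mul, map_mul]
    exact ((h4.map φ).mul hεk).mul ⟨φ ε⁻¹, by rw [map_mul]⟩

/-- a ring homomorphism into a domain of characteristic zero preserves primitive roots of unity -/
theorem iho_isPrimitiveRoot_map {B 𝒪 : Type*} [CommRing B] [IsDomain B] [CommRing 𝒪] [IsDomain 𝒪]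
    [CharZero 𝒪] (j : B →+* 𝒪) {n : ℕ} (hn : 0 < n) {ζ : B} (hζ : IsPrimitiveRoot ζ n) :
    IsPrimitiveRoot (j ζ) n := by
  obtain ⟨m, rfl⟩ : ∃ m, n = m + 1 := ⟨n - 1, by omega⟩
  refine IsPrimitiveRoot.mk_of_lt (j ζ) hn (by rw [← map_pow, hζ.pow_eq_one, map_one]) ?_
  intro l hl0 hl h
  obtain ⟨k, rfl⟩ : ∃ k, l = k + 1 := ⟨l - 1, by omega⟩
  have h1 := congrArg j hζ.prod_one_sub_pow_eq_order
  rw [map_prod] at h1
  have h2 : ∏ i ∈ Finset.range m, j (1 - ζ ^ (i + 1)) = 0 := by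
    refine Finset.prod_eq_zero (Finset.mem_range.2 (by omega : k < m)) ?_
    rw [map_sub, map_one, map_pow, h, sub_self]
  rw [h2] at h1
  have h3 : ((m + 1 : ℕ) : 𝒪) = 0 := by
    rw [h1]; simp
  exact (Nat.succ_ne_zero m) (by exact_mod_cast h3)

/-- **the coefficient ring** -/
theorem iho_exists (p : ℕ) [Fact p.Prime] (hp2 : p ≠ 2) (n : ℕ) (hn : 0 < n) :
    ∃ (𝒪 : Type) (_ : CommRing 𝒪) (_ : IsDomain 𝒪) (_ : IsDiscreteValuationRing 𝒪)
      (_ : IsAdicComplete (maximalIdeal 𝒪) 𝒪) (_ : Finite (ResidueField 𝒪)) (_ : CharZero 𝒪),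
      (p : 𝒪) ∈ maximalIdeal 𝒪 ∧ (∃ ζ : 𝒪, IsPrimitiveRoot ζ n) ∧
      ∀ a : ℤ, IsSquare ((a : ResidueField 𝒪)) := by
  classical
  have hp : p.Prime := Fact.out
  haveI : NeZero p := ⟨hp.ne_zero⟩
  -- a non-residue
  have hchar : ringChar (ZMod p) ≠ 2 := by rwa [ZMod.ringChar_zmod_n]
  obtain ⟨ε, hε⟩ := FiniteField.exists_nonsquare hchar
  obtain ⟨e, he⟩ : ∃ e : ℤ, (e : ZMod p) = ε := ⟨ε.val, by simp⟩
  -- the two algebraic numbers
  set ζ : ℂ := Complex.exp (2 * Real.pi * Complex.I / n) with hζdef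
  have hζ : IsPrimitiveRoot ζ n := Complex.isPrimitiveRoot_exp n hn.ne' 
  obtain ⟨s, hs⟩ := IsAlgClosed.exists_eq_mul_self ((e : ℤ) : ℂ)
  have hζint : IsIntegral ℤ ζ :=
    ⟨Polynomial.X ^ n - 1, Polynomial.monic_X_pow_sub_C 1 hn.ne', by
      simp [hζ.pow_eq_one]⟩
  have hsint : IsIntegral ℤ s :=
    ⟨Polynomial.X ^ 2 - Polynomial.C e, Polynomial.monic_X_pow_sub_C e two_ne_zero, by
      rw [Polynomial.eval₂_sub, Polynomial.eval₂_pow, Polynomial.eval₂_X, Polynomial.eval₂_C,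
        pow_two, ← hs]
      simp⟩
  -- the number field
  let K : IntermediateField ℚ ℂ := IntermediateField.adjoin ℚ ({ζ, s} : Set ℂ)
  haveI hfd : FiniteDimensional ℚ K := IntermediateField.finiteDimensional_adjoin (by
    intro x hx
    rcases hx with rfl | rfl
    · exact hζint.tower_top
    · exact hsint.tower_top)
  have hζK : ζ ∈ K := IntermediateField.subset_adjoin ℚ _ (Set.mem_insert _ _)
  have hsK : s ∈ K := IntermediateField.subset_adjoin ℚ _ (Set.mem_insert_of_mem _ rfl)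
  haveI : NumberField ↥K := { to_charZero := inferInstance, to_finiteDimensional := hfd }
  let ζB : 𝓞 ↥K := ⟨⟨ζ, hζK⟩, by
    show IsIntegral ℤ (⟨ζ, hζK⟩ : ↥K)
    rw [← isIntegral_algebraMap_iff (algebraMap ↥K ℂ).injective]
    exact hζint⟩
  let sB : 𝓞 ↥K := ⟨⟨s, hsK⟩, by
    show IsIntegral ℤ (⟨s, hsK⟩ : ↥K)
    rw [← isIntegral_algebraMap_iff (algebraMap ↥K ℂ).injective]
    exact hsint⟩
  have hζB : IsPrimitiveRoot ζB n := by
    let φ : 𝓞 ↥K →+* ℂ := (algebraMap ↥K ℂ).comp (algebraMap (𝓞 ↥K) ↥K)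
    have hφinj : Function.Injective φ :=
      (algebraMap ↥K ℂ).injective.comp RingOfIntegers.coe_injective
    have hφζ : φ ζB = ζ := rfl
    exact IsPrimitiveRoot.of_map_of_injective (f := φ) (by rw [hφζ]; exact hζ) hφinj
  have hsB : sB * sB = (e : 𝓞 ↥K) := by
    apply RingOfIntegers.ext
    apply Subtype.ext
    show s * s = _
    rw [← hs]
    simp
  -- the residue map
  obtain ⟨𝔪, h𝔪, hp𝔪⟩ := FLTPrelim.exists_maximalIdeal_natCast_prime_mem hp
  haveI := h𝔪
  letI : Field (integralClosure ℤ ℂ ⧸ 𝔪) := Ideal.Quotient.field 𝔪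
  haveI : CharP (integralClosure ℤ ℂ ⧸ 𝔪) p := by
    rw [CharP.charP_iff_prime_eq_zero hp, ← map_natCast (Ideal.Quotient.mk 𝔪)]
    exact Ideal.Quotient.eq_zero_iff_mem.mpr hp𝔪
  let jB : 𝓞 ↥K →+* integralClosure ℤ ℂ := RingOfIntegers.mapRingHom (K.val : ↥K →+* ℂ)
  obtain ⟨𝒪, i1, i2, i3, i4, i5, i6, j, ι, hp𝒪, -⟩ :=
    Fermat.Agent.T1.ter_exists_dvr_of_dedekind (B := 𝓞 ↥K)
      (fun I hI => Ideal.finiteQuotientOfFreeOfNeBot I hI) hp ((Ideal.Quotient.mk 𝔪).comp jB)
  refine ⟨𝒪, i1, i2, i3, i4, i5, i6, hp𝒪, ⟨j ζB, ?_⟩, ?_⟩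
  · -- the primitive root
    exact iho_isPrimitiveRoot_map j hn hζB
  · -- squares
    intro a
    letI : Algebra (ZMod p) (ResidueField 𝒪) := by
      haveI : CharP (ResidueField 𝒪) p := by
        refine (CharP.charP_iff_prime_eq_zero hp).2 ?_
        rw [← map_natCast (residue 𝒪)]
        exact (residue_eq_zero_iff _).2 hp𝒪
      exact ZMod.algebra (ResidueField 𝒪) p
    have hεk : IsSquare (algebraMap (ZMod p) (ResidueField 𝒪) ε) := by
      refine ⟨residue 𝒪 (j sB), ?_⟩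
      rw [← map_mul, ← map_mul, hsB, map_intCast, map_intCast, ← he, map_intCast]
    have := iho_isSquare_of_nonresidue hp2 (algebraMap (ZMod p) (ResidueField 𝒪)) ε hε hεk (a : ZMod p)
    rwa [map_intCast] at this

end Fermat.Agent.Ihara
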